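/-
S55 / block UNITS-CL : definitions.  The dictionary between
* the "function language" `H^0_S(Map(X_K, A))`, `A = ESx S, LSx S, DivMod S`, `X_K = GQ ⧸ fixG K`, and
* the arithmetic of the number field `K` in Mathlib vocabulary (`S`-units `Set.unit`, divisors
  `Exist.Dv`, the divisor map `Exist.divT`).
A number field is a type `K` with `[Field K] [NumberField K] [Algebra K Qb]` (as in block DICT).
-/
import Fermat.Agent.S55.Dict.Defs
import Fermat.Agent.S55.Units.ArithDefs
import Fermat.Agent.S55.Exist.Defs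
import Fermat.Agent.S55.Coh.H0

set_option autoImplicit false

namespace Fermat.Agent.S55.Units.Cl

open scoped Pointwise
open NumberField IsDedekindDomain
open Fermat.Agent.S55.NIT (Pl)
open Fermat.Agent.S55.Dict (fixG kx Below OverQ)

/-! ### Invariants of `Map(G ⧸ U, A)` (Shapiro's lemma in degree `0`) -/

section shapiro

variable {G : Type} [Group G] (U : Subgroup G) (A : Type) [AddCommGroup A] [DistribMulAction G A]

/-- The `U`-invariants of `A`. -/
def invU : AddSubgroup A where
  carrier := {a | ∀ u ∈ U, u • a = a}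
  zero_mem' u _ := smul_zero u
  add_mem' ha hb u hu := by rw [smul_add, ha u hu, hb u hu]
  neg_mem' ha u hu := by rw [smul_neg, ha u hu]

variable {U A}

theorem mem_invU {a : A} : a ∈ invU U A ↔ ∀ u ∈ U, u • a = a := Iff.rfl

variable (U A)

/-- `a ↦ (g U ↦ g • a)`. -/
def coind (a : invU U A) : IndMod (G ⧸ U) A := IndMod.of (cosetToSet U (a : A) a.2)

variable {U A}

@[simp] theorem coind_mk (a : invU U A) (g : G) : coind U A a (g : G ⧸ U) = g • (a : A) := rfl

theorem coind_mem_inv0 (a : invU U A) : coind U A a ∈ inv0 G (IndMod (G ⧸ U) A) := by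
  intro g
  ext x
  induction x using QuotientGroup.induction_on with
  | H h =>
    rw [IndMod.smul_apply]
    have : g⁻¹ • (h : G ⧸ U) = ((g⁻¹ * h : G) : G ⧸ U) := rfl
    rw [this, coind_mk, coind_mk, smul_smul, mul_inv_cancel_left]

/-- an invariant function on `G ⧸ U` is equivariant -/
theorem apply_mk_of_mem_inv0 {f : IndMod (G ⧸ U) A} (hf : f ∈ inv0 G (IndMod (G ⧸ U) A)) (g : G) :
    f (g : G ⧸ U) = g • f ((1 : G) : G ⧸ U) := by
  have h := congrArg (fun F : IndMod (G ⧸ U) A => F (g : G ⧸ U)) (hf g)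
  simp only [IndMod.smul_apply] at h
  have h1 : g⁻¹ • (g : G ⧸ U) = ((1 : G) : G ⧸ U) := by
    have : g⁻¹ • (g : G ⧸ U) = ((g⁻¹ * g : G) : G ⧸ U) := rfl
    rw [this, inv_mul_cancel]
  rw [h1] at h
  exact h.symm

theorem apply_one_mem_invU {f : IndMod (G ⧸ U) A} (hf : f ∈ inv0 G (IndMod (G ⧸ U) A)) :
    f ((1 : G) : G ⧸ U) ∈ invU U A := by
  intro u hu
  rw [← apply_mk_of_mem_inv0 hf u]
  congr 1
  rw [QuotientGroup.eq]
  simpa using hu

variable (U A)

/-- **Shapiro's lemma in degree `0`**: `Map(G ⧸ U, A)^G = A^U`, `f ↦ f(1)`. -/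
def sh0 : inv0 G (IndMod (G ⧸ U) A) ≃+ invU U A where
  toFun f := ⟨(f : IndMod (G ⧸ U) A) ((1 : G) : G ⧸ U), apply_one_mem_invU f.2⟩
  invFun a := ⟨coind U A a, coind_mem_inv0 a⟩
  left_inv f := by
    apply Subtype.ext
    ext x
    induction x using QuotientGroup.induction_on with
    | H g => exact (apply_mk_of_mem_inv0 f.2 g).symm
  right_inv a := by
    apply Subtype.ext
    exact one_smul G (a : A)
  map_add' _ _ := rfl

variable {U A}

@[simp] theorem coe_sh0 (f : inv0 G (IndMod (G ⧸ U) A)) :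
    (sh0 U A f : A) = (f : IndMod (G ⧸ U) A) ((1 : G) : G ⧸ U) := rfl

@[simp] theorem coe_sh0_symm (a : invU U A) :
    ((sh0 U A).symm a : IndMod (G ⧸ U) A) = coind U A a := rfl

end shapiro

/-! ### `S`-fields and their primes over `S` -/

section field

variable (S : Finset Nat.Primes) (K : Type) [Field K] [NumberField K]

/-- `K` is an `S`-field: it is contained in a finite Galois extension of `ℚ` unramified
outside `S`. -/
def IsSField [Algebra K Qb] : Prop := (lvlS S).IsOpen (fixG K)

theorem finite_overQ (q : ℕ) (hq : q ≠ 0) : {v : Pl K | OverQ K q v}.Finite := by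
  have hne : Ideal.span {(q : 𝓞 K)} ≠ ⊥ := by
    rw [Ne, Ideal.span_singleton_eq_bot]
    exact_mod_cast hq
  refine (Ideal.finite_factors hne).subset fun v hv => ?_
  show v.asIdeal ∣ Ideal.span {(q : 𝓞 K)}
  rw [Ideal.dvd_span_singleton]
  exact hv

theorem finite_SK : {v : Pl K | ∃ q ∈ S, OverQ K ((q : Nat.Primes) : ℕ) v}.Finite := by
  have : {v : Pl K | ∃ q ∈ S, OverQ K ((q : Nat.Primes) : ℕ) v} =
      ⋃ q ∈ S, {v : Pl K | OverQ K ((q : Nat.Primes) : ℕ) v} := by
    ext v; simp
  rw [this]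
  exact S.finite_toSet.biUnion fun q _ => finite_overQ K q q.2.ne_zero

/-- The (finite) set `S_K` of primes of `K` over `S`. -/
noncomputable def SK : Finset (Pl K) := (finite_SK S K).toFinset

variable {S K}

theorem mem_SK {v : Pl K} : v ∈ SK S K ↔ ∃ q ∈ S, OverQ K ((q : Nat.Primes) : ℕ) v :=
  (finite_SK S K).mem_toFinset

end field

end Fermat.Agent.S55.Units.Cl
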