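/-
S55 / block UNITS-CL : places of `ℚ̄` outside `S` versus primes of `K` outside `S_K`
(task UNITS-CL-Places, owner helper2).
-/
import Fermat.Agent.S55.Units.Cl.Defs
import Fermat.Agent.S55.Dict.Below

set_option autoImplicit false

namespace Fermat.Agent.S55.Units.Cl

open scoped Pointwise
open NumberField IsDedekindDomain
open Fermat.Agent.S55.NIT (Pl)
open Fermat.Agent.S55.Dict (fixG kx Below OverQ)

variable {S : Finset Nat.Primes} {K : Type} [Field K] [NumberField K] [Algebra K Qb]

/-! ## Section Places : file `Units/Cl/Places.lean` (uses section `Below` of block DICT) -/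
section Places

theorem offS_iff_not_mem_SK {v : Pl K} {B : ValuationSubring Qb} (h : Below K v B) :
    OffS S B ↔ v ∉ SK S K := by
  constructor
  · rintro ⟨q, hq, hB⟩ hv
    obtain ⟨q', hq', hv'⟩ := mem_SK.1 hv
    have hB' : B.LiesOverPrime (q' : ℕ) := (h.overQ_iff _).1 hv'
    have : (q : ℕ) = q' := liesOverPrime_unique q.2 q'.2 hB hB'
    exact hq ((Subtype.ext this : q = q') ▸ hq')
  · intro hv
    obtain ⟨q, hq, hvq⟩ := Dict.exists_prime_overQ v
    refine ⟨⟨q, hq⟩, fun hqS => hv (mem_SK.2 ⟨⟨q, hq⟩, hqS, hvq⟩), (h.overQ_iff _).1 hvq⟩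

theorem exists_plOff_above (v : Pl K) (hv : v ∉ SK S K) : ∃ B : PlOff S, Below K v B.1 := by
  obtain ⟨B, hB⟩ := Dict.exists_below v
  exact ⟨⟨B, (offS_iff_not_mem_SK hB).2 hv⟩, hB⟩

theorem exists_below_plOff (B : PlOff S) : ∃ v : Pl K, v ∉ SK S K ∧ Below K v B.1 := by
  obtain ⟨v, hv⟩ := Dict.exists_place (K := K) B.1 B.char.2 B.liesOver_char
  exact ⟨v, (offS_iff_not_mem_SK hv).1 B.2, hv⟩

variable (S K) in
/-- The prime of `K` below a place of `ℚ̄` outside `S`. -/
noncomputable def below (B : PlOff S) : {v : Pl K // v ∉ SK S K} :=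
  ⟨(exists_below_plOff (K := K) B).choose, (exists_below_plOff (K := K) B).choose_spec.1⟩

theorem below_spec (B : PlOff S) : Below K (below S K B).1 B.1 :=
  (exists_below_plOff (K := K) B).choose_spec.2

theorem below_eq_of {v : Pl K} {B : PlOff S} (h : Below K v B.1) : (below S K B).1 = v :=
  (below_spec B).unique h

theorem below_smul (B : PlOff S) {g : GQ} (hg : g ∈ fixG K) :
    below S K (g • B) = below S K B :=
  Subtype.ext (below_eq_of (B := g • B) ((below_spec B).smul hg))

theorem exists_smul_eq_of_below_eq {B B' : PlOff S} (h : below S K B = below S K B') :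
    ∃ g ∈ fixG K, g • B = B' := by
  have h1 : Below K (below S K B).1 B.1 := below_spec B
  have h2 : Below K (below S K B).1 B'.1 := h ▸ below_spec B'
  obtain ⟨g, hg, hgB⟩ := h1.exists_smul h2
  exact ⟨g, hg, Subtype.ext hgB⟩

theorem below_surjective : Function.Surjective (below S K) := by
  rintro ⟨v, hv⟩
  obtain ⟨B, hB⟩ := exists_plOff_above v hv
  exact ⟨B, Subtype.ext (below_eq_of hB)⟩

/-- finitely many primes of `K` over a finite set of prime numbers -/
theorem finite_below_char (T : Finset Nat.Primes) :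
    {v : {v : Pl K // v ∉ SK S K} | ∃ B : PlOff S, B.char ∈ T ∧ below S K B = v}.Finite := by
  have hfin : {v : Pl K | ∃ q ∈ T, OverQ K ((q : Nat.Primes) : ℕ) v}.Finite := finite_SK T K
  refine Set.Finite.of_finite_image (f := Subtype.val) (hfin.subset ?_)
    (Subtype.val_injective.injOn)
  rintro _ ⟨v, ⟨B, hBT, rfl⟩, rfl⟩
  exact ⟨B.char, hBT, ((below_spec B).overQ_iff _).2 B.liesOver_char⟩

/-- the residue characteristic only depends on the prime below -/
theorem char_eq_of_below_eq {B B' : PlOff S} (h : below S K B = below S K B') :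
    B.char = B'.char := by
  obtain ⟨g, _, rfl⟩ := exists_smul_eq_of_below_eq h
  exact (PlOff.char_smul g B).symm

end Places

end Fermat.Agent.S55.Units.Cl
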