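/-
S55 / block UNITS-CL : `Units/Cl/Div.lean` : invariant divisors = divisors of `K` outside `S_K`.
-/
import Fermat.Agent.S55.Units.Cl.Places

set_option autoImplicit false

namespace Fermat.Agent.S55.Units.Cl

open scoped Pointwise
open NumberField IsDedekindDomain
open Fermat.Agent.S55.NIT (Pl)
open Fermat.Agent.S55.Dict (fixG kx Below OverQ)

variable {S : Finset Nat.Primes} {K : Type} [Field K] [NumberField K] [Algebra K Qb]

/-! ## Section Div : file `Units/Cl/Div.lean` (invariant divisors = divisors of `K` outside `S_K`) -/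
section Div

variable (S K) in
/-- a chosen place of `ℚ̄` above a prime of `K` outside `S_K` -/
noncomputable def divAbove (v : {v : Pl K // v ∉ SK S K}) : PlOff S :=
  (below_surjective (S := S) (K := K) v).choose

theorem below_divAbove (v : {v : Pl K // v ∉ SK S K}) : below S K (divAbove S K v) = v :=
  (below_surjective (S := S) (K := K) v).choose_spec

/-- an invariant divisor only depends on the prime of `K` below -/
theorem div_apply_eq_of_below_eq {φ : DivMod S} (hφ : φ ∈ invU (fixG K) (DivMod S))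
    {B B' : PlOff S} (h : below S K B = below S K B') : φ B = φ B' := by
  obtain ⟨g, hg, rfl⟩ := exists_smul_eq_of_below_eq h
  have h1 := congrArg (fun ψ : DivMod S => ψ (g • B)) (hφ g hg)
  simp only [DivMod.smul_apply, inv_smul_smul] at h1
  exact h1

theorem div_finite_support (φ : DivMod S) :
    (Function.support fun v : {v : Pl K // v ∉ SK S K} => φ (divAbove S K v)).Finite := by
  obtain ⟨_, T, hT⟩ := φ.2
  refine (finite_below_char (S := S) (K := K) T).subset fun v hv => ?_
  refine ⟨divAbove S K v, ?_, below_divAbove v⟩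
  by_contra hc
  exact hv (hT _ hc)

/-- the divisor of `ℚ_S` attached to a divisor of `K` -/
theorem div_pullback_mem (hK : IsSField S K) (E : Exist.Dv K (SK S K)) :
    (fun B : PlOff S => E (below S K B)) ∈ divSub S := by
  classical
  obtain ⟨N, ⟨F, hF, hst, rfl⟩, hle⟩ := hK
  refine ⟨⟨F, hF, hst.fixingSubgroup_normal, fun n hn A => ?_⟩,
    ⟨E.support.image fun v => (divAbove S K v).char, fun A hA => ?_⟩⟩
  · show E (below S K (n • A)) = E (below S K A)
    rw [below_smul A (hle hn)]
  · by_contra hne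
    apply hA
    rw [Finset.mem_image]
    refine ⟨below S K A, Finsupp.mem_support_iff.2 hne, ?_⟩
    exact char_eq_of_below_eq (K := K) (below_divAbove _)

/-- `I_S^{U_K} = ⨁_{v ∉ S_K} ℤ`. -/
noncomputable def divEquivAux (hK : IsSField S K) :
    invU (fixG K) (DivMod S) ≃+ Exist.Dv K (SK S K) where
  toFun φ := Finsupp.ofSupportFinite (fun v => (φ : DivMod S) (divAbove S K v))
    (div_finite_support (φ : DivMod S))
  invFun E := ⟨⟨fun B => E (below S K B), div_pullback_mem hK E⟩, by
    intro u hu
    ext B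
    show E (below S K (u⁻¹ • B)) = E (below S K B)
    rw [below_smul B ((fixG K).inv_mem hu)]⟩
  left_inv φ := by
    apply Subtype.ext
    ext B
    show (φ : DivMod S) (divAbove S K (below S K B)) = (φ : DivMod S) B
    exact div_apply_eq_of_below_eq φ.2 (below_divAbove _)
  right_inv E := by
    ext v
    show E (below S K (divAbove S K v)) = E v
    rw [below_divAbove]
  map_add' φ ψ := by
    ext v
    rfl

theorem divEquivAux_apply (hK : IsSField S K) (φ : invU (fixG K) (DivMod S)) (B : PlOff S) :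
    divEquivAux hK φ (below S K B) = (φ : DivMod S) B :=
  div_apply_eq_of_below_eq φ.2 (below_divAbove _)

/-- `H^0(Map(X_K, I_S)) = ⨁_{v ∉ S_K} ℤ`.
Route: `sh0` reduces to `invU (fixG K) (DivMod S) ≃+ Dv`.  `φ ↦ (v ↦ φ B)` for any `B` with
`below B = v` (independent of `B`: `exists_smul_eq_of_below_eq`; finite support:
`finite_below_char` and the second clause of `divSub`).  Inverse: `E ↦ (B ↦ E (below B))`; it is in
`divSub S` because of `hK` (a level `N = F.fixingSubgroup ≤ fixG K`, `below_smul`) and because the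
support of `E` is finite (`T` = the residue characteristics, `char_eq_of_below_eq`). -/
theorem exists_divEquiv (hK : IsSField S K) :
    ∃ e : inv0 GQ (IndMod (GQ ⧸ fixG K) (DivMod S)) ≃+ Exist.Dv K (SK S K),
      ∀ (φ : inv0 GQ (IndMod (GQ ⧸ fixG K) (DivMod S))) (B : PlOff S),
        e φ (below S K B) =
          (φ : IndMod (GQ ⧸ fixG K) (DivMod S)) ((1 : GQ) : GQ ⧸ fixG K) B :=
  ⟨(sh0 (fixG K) (DivMod S)).trans (divEquivAux hK), fun φ B =>
    divEquivAux_apply hK (sh0 (fixG K) (DivMod S) φ) B⟩

/-- `H^0(Map(X_K, I_S)) = ⨁_{v ∉ S_K} ℤ`. -/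
noncomputable def divEquiv (hK : IsSField S K) :
    inv0 GQ (IndMod (GQ ⧸ fixG K) (DivMod S)) ≃+ Exist.Dv K (SK S K) := (exists_divEquiv hK).choose

theorem divEquiv_apply (hK : IsSField S K) (φ : inv0 GQ (IndMod (GQ ⧸ fixG K) (DivMod S)))
    (B : PlOff S) : divEquiv hK φ (below S K B) =
      (φ : IndMod (GQ ⧸ fixG K) (DivMod S)) ((1 : GQ) : GQ ⧸ fixG K) B :=
  (exists_divEquiv hK).choose_spec φ B

theorem apply_mk_eq_divEquiv (hK : IsSField S K)
    (φ : inv0 GQ (IndMod (GQ ⧸ fixG K) (DivMod S))) (g : GQ) (B : PlOff S) :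
    (φ : IndMod (GQ ⧸ fixG K) (DivMod S)) (g : GQ ⧸ fixG K) B =
      divEquiv hK φ (below S K (g⁻¹ • B)) := by
  rw [divEquiv_apply, apply_mk_of_mem_inv0 φ.2 g, DivMod.smul_apply]

end Div

end Fermat.Agent.S55.Units.Cl
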