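/-
S55 / block UNITS-CL : `Units/Cl/Push.lean` : corestriction of divisors
(task UNITS-CL-Push, owner helper3).
-/
import Fermat.Agent.S55.Units.Cl.Div
import Fermat.Agent.S55.Dict.Fix

set_option autoImplicit false

namespace Fermat.Agent.S55.Units.Cl

open scoped Pointwise
open NumberField IsDedekindDomain
open Fermat.Agent.S55.NIT (Pl)
open Fermat.Agent.S55.Dict (fixG kx Below OverQ)

/-- A sum of a function invariant under a permutation all of whose orbits have size divisible by
`p` is divisible by `p`. -/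
theorem dvd_sum_of_perm_invariant {Y : Type} [Fintype Y] (τ : Equiv.Perm Y) (f : Y → ℤ) (p : ℕ)
    (hf : ∀ y, f (τ y) = f y) (hp : ∀ (y : Y) (i : ℕ), (τ ^ i) y = y → p ∣ i) :
    (p : ℤ) ∣ ∑ y, f y := by
  classical
  have hinv : ∀ g ∈ Subgroup.zpowers τ, ∀ y, f (g y) = f y := by
    let H : Subgroup (Equiv.Perm Y) :=
      { carrier := {g | ∀ y, f (g y) = f y}
        one_mem' := fun _ => rfl
        mul_mem' := by
          intro a b ha hb y
          show f (a (b y)) = f y
          rw [ha, hb]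
        inv_mem' := by
          intro a ha y
          have := ha (a⁻¹ y)
          simpa using this.symm }
    have hle : Subgroup.zpowers τ ≤ H := by
      rw [Subgroup.zpowers_le]
      exact hf
    exact fun g hg => hle hg
  rw [← Equiv.sum_comp (MulAction.selfEquivSigmaOrbits (Subgroup.zpowers τ) Y).symm,
    Fintype.sum_sigma]
  refine Finset.dvd_sum fun ω _ => ?_
  have hconst : ∀ y : MulAction.orbit (Subgroup.zpowers τ) (Quotient.out ω),
      f ((MulAction.selfEquivSigmaOrbits (Subgroup.zpowers τ) Y).symm ⟨ω, y⟩) =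
        f (Quotient.out ω) := by
    rintro ⟨y, g, rfl⟩
    exact hinv g.1 g.2 _
  rw [Finset.sum_congr rfl fun y _ => hconst y, Finset.sum_const, Finset.card_univ, nsmul_eq_mul]
  refine Dvd.dvd.mul_right ?_ _
  rw [Int.natCast_dvd_natCast, ← MulAction.minimalPeriod_eq_card]
  apply hp (Quotient.out ω)
  have := Function.iterate_minimalPeriod (f := (τ • ·)) (x := Quotient.out ω)
  rw [smul_iterate] at this
  exact this

variable {S : Finset Nat.Primes} {K : Type} [Field K] [NumberField K] [Algebra K Qb]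

/-! ## Section Push : file `Units/Cl/Push.lean` (corestriction of divisors) -/
section Push

variable {L : Type} [Field L] [NumberField L] [Algebra K L] [Algebra L Qb] [IsScalarTower K L Qb]

theorem IsSField.of_tower (hL : IsSField S L) : IsSField S K := by
  obtain ⟨N, hN, hle⟩ := hL
  exact ⟨N, hN, hle.trans (Dict.fixG_le K L)⟩

/-- evaluation of a divisor at a place, as an additive map -/
def DivMod.evalHom (B : PlOff S) : DivMod S →+ ℤ where
  toFun φ := φ B
  map_zero' := rfl
  map_add' _ _ := rfl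

/-- the corestriction of an invariant divisor, evaluated at the prime below `B` -/
theorem divEquiv_push (hK : IsSField S K) (𝔄 : inv0 GQ (IndMod (GQ ⧸ fixG L) (DivMod S)))
    (B : PlOff S) :
    divEquiv hK (inv0.map (IndMod.push (DivMod S) (Dict.proj K L)) 𝔄) (below S K B) =
      ∑ᶠ y : {y : GQ ⧸ fixG L // Dict.proj K L y = ((1 : GQ) : GQ ⧸ fixG K)},
        (𝔄 : IndMod (GQ ⧸ fixG L) (DivMod S)) y.1 B := by
  rw [divEquiv_apply, inv0.coe_map, IndMod.push_apply]
  exact (DivMod.evalHom B).map_finsum (Set.toFinite _)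

/-- if `L/K` is Galois and the image in `Gal(L/K)` of an element `d` of the decomposition group of
`B` in `Gal(ℚ̄/K)` has order divisible by `p`, then `p` divides the corestriction of every divisor of
`L` at the prime below `B`. -/
theorem dvd_divEquiv_push (hK : IsSField S K)
    (hn : ∀ g ∈ fixG K, ∀ u ∈ fixG L, g * u * g⁻¹ ∈ fixG L)
    (𝔄 : inv0 GQ (IndMod (GQ ⧸ fixG L) (DivMod S))) (B : PlOff S) (p : ℕ)
    (d : GQ) (hdK : d ∈ fixG K) (hdB : d • B = B) (hd : ∀ i : ℕ, d ^ i ∈ fixG L → p ∣ i) :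
    (p : ℤ) ∣ divEquiv hK (inv0.map (IndMod.push (DivMod S) (Dict.proj K L)) 𝔄) (below S K B) := by
  classical
  rw [divEquiv_push]
  have := Fintype.ofFinite {y : GQ ⧸ fixG L // Dict.proj K L y = ((1 : GQ) : GQ ⧸ fixG K)}
  rw [finsum_eq_sum_of_fintype]
  -- `fixG K` fixes the base point of `GQ ⧸ fixG K`
  have hbase : ∀ e ∈ fixG K, e • ((1 : GQ) : GQ ⧸ fixG K) = ((1 : GQ) : GQ ⧸ fixG K) := by
    intro e he
    show ((e * 1 : GQ) : GQ ⧸ fixG K) = ((1 : GQ) : GQ ⧸ fixG K)
    rw [QuotientGroup.eq]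
    simpa using he
  let τ : Equiv.Perm {y : GQ ⧸ fixG L // Dict.proj K L y = ((1 : GQ) : GQ ⧸ fixG K)} :=
    { toFun := fun y => ⟨d • y.1, by rw [map_smul, y.2, hbase d hdK]⟩
      invFun := fun y => ⟨d⁻¹ • y.1, by rw [map_smul, y.2, hbase _ ((fixG K).inv_mem hdK)]⟩
      left_inv := fun y => by simp
      right_inv := fun y => by simp }
  have hτ : ∀ (i : ℕ) (y : {y : GQ ⧸ fixG L // Dict.proj K L y = ((1 : GQ) : GQ ⧸ fixG K)}),
      ((τ ^ i) y).1 = d ^ i • y.1 := by
    intro i
    induction i with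
    | zero => intro y; simp
    | succ i ih =>
      intro y
      rw [pow_succ', Equiv.Perm.mul_apply, pow_succ', mul_smul, ← ih y]
      rfl
  refine dvd_sum_of_perm_invariant τ _ p ?_ ?_
  · intro y
    show (𝔄 : IndMod (GQ ⧸ fixG L) (DivMod S)) (d • y.1) B =
      (𝔄 : IndMod (GQ ⧸ fixG L) (DivMod S)) y.1 B
    have h1 := congrArg (fun F : IndMod (GQ ⧸ fixG L) (DivMod S) => F (d • y.1) B) (𝔄.2 d)
    simp only [IndMod.smul_apply, DivMod.smul_apply, inv_smul_smul] at h1
    have h2 : d⁻¹ • B = B := by rw [inv_smul_eq_iff, hdB]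
    rw [h2] at h1
    exact h1.symm
  · rintro ⟨y, hy⟩ i hi
    have h1 : d ^ i • y = y := by
      have := hτ i ⟨y, hy⟩
      rw [hi] at this
      exact this.symm
    apply hd
    induction y using QuotientGroup.induction_on with
    | H g =>
      have hg : g ∈ fixG K := by
        have h2 : ((g : GQ) : GQ ⧸ fixG K) = ((1 : GQ) : GQ ⧸ fixG K) := hy
        rw [QuotientGroup.eq] at h2
        have := (fixG K).inv_mem h2
        simpa using this
      have h3 : ((d ^ i * g : GQ) : GQ ⧸ fixG L) = (g : GQ ⧸ fixG L) := h1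
      rw [QuotientGroup.eq] at h3
      have h4 := hn g hg _ ((fixG L).inv_mem h3)
      have h5 : g * ((d ^ i * g)⁻¹ * g)⁻¹ * g⁻¹ = d ^ i := by group
      rw [h5] at h4
      exact h4

end Push

end Fermat.Agent.S55.Units.Cl
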