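/-
S55 / block UNITS-CL, file `Units/Cl/Ord.lean` (task UNITS-CL-Ord, helper70): `e = 1` outside `S`.
-/
import Fermat.Agent.S55.Units.Cl.Places
import Fermat.Agent.S55.Dict.BelowVal
import Fermat.Agent.S55.Units.Mods
import Fermat.Agent.S55.Units.EOne
import Fermat.Agent.S55.Units.Ord
import Fermat.Agent.S55.Exist.OrdBasic

set_option autoImplicit false

namespace Fermat.Agent.S55.Units.Cl

open scoped Pointwise
open NumberField IsDedekindDomain
open Fermat.Agent.S55.NIT (Pl)
open Fermat.Agent.S55.Dict (fixG kx Below OverQ)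

variable {S : Finset Nat.Primes} {K : Type} [Field K] [NumberField K] [Algebra K Qb]

/-! ## Section Ord : file `Units/Cl/Ord.lean` (`e = 1` outside `S`) -/
section Ord

/-- Route: `N = F.fixingSubgroup ≤ fixG K`, the image of `x` is fixed by `N`, hence lies in `F`
(`InfiniteGalois.fixedField_fixingSubgroup`). -/
theorem inQS_of_isSField (hK : IsSField S K) (x : K) : InQS S (algebraMap K Qb x) := by
  obtain ⟨N, ⟨F, hF, -, rfl⟩, hN⟩ := hK
  refine ⟨F, hF, ?_⟩
  have : IsGalois ℚ Qb := Fermat.Agent.Lib.Frobenius.isGalois_rat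
  rw [← InfiniteGalois.fixedField_fixingSubgroup F]
  exact fun n => hN n.2 x

/-- a unit at `v` is a unit at every `B` above `v`. -/
theorem ord_valuation_eq_one {v : Pl K} {B : ValuationSubring Qb} (hv : Below K v B) (u : Kˣ)
    (hu : Exist.ord K v (Additive.ofMul u) = 0) : B.valuation (algebraMap K Qb (u : K)) = 1 := by
  have h1 : v.valuation K (u : K) = 1 := (Exist.ord_eq_zero_iff v u).mp hu
  have h2 : v.valuation K ((u : K)⁻¹) = 1 := by rw [map_inv₀, h1, inv_one]
  have h3 : B.valuation (algebraMap K Qb (u : K)) ≤ 1 :=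
    (B.valuation_le_one_iff _).mpr ((hv.valuation_le_one_iff _).mp h1.le)
  have h4 : B.valuation (algebraMap K Qb ((u : K)⁻¹)) ≤ 1 :=
    (B.valuation_le_one_iff _).mpr ((hv.valuation_le_one_iff _).mp h2.le)
  rw [map_inv₀, map_inv₀] at h4
  have h0 : B.valuation (algebraMap K Qb (u : K)) ≠ 0 := by
    rw [Valuation.ne_zero_iff, Ne, map_eq_zero]
    exact u.ne_zero
  exact le_antisymm h3 ((inv_le_one₀ (zero_lt_iff.mpr h0)).mp h4)

/-- the valuation at `B` of an element of `K` in terms of a uniformiser at `v`. -/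
theorem ord_valuation_eq_zpow {v : Pl K} {B : ValuationSubring Qb} (hv : Below K v B) (π : Kˣ)
    (hπ : Exist.ord K v (Additive.ofMul π) = 1) (b : Kˣ) :
    B.valuation (algebraMap K Qb (b : K)) =
      B.valuation (algebraMap K Qb (π : K)) ^ Exist.ord K v (Additive.ofMul b) := by
  obtain ⟨u, hu, hb⟩ := Exist.exists_unit_mul_zpow v π hπ b
  rw [Exist.mem_Uv_iff_ord] at hu
  conv_lhs => rw [hb]
  rw [Units.val_mul, map_mul, map_mul, ord_valuation_eq_one hv u hu, one_mul, Units.val_zpow_eq_zpow_val,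
    map_zpow₀, map_zpow₀]

/-- The normalised valuation at `B` restricts to `ord_v` on `K`, `v` the prime below `B`.
Route: `q = B.char`, `π` a uniformiser at `v` (`Exist.exists_ord_eq_one`), `e = ord_v q ≥ 1`;
`q = π^e u`, `a = π^n u'` with `u u'` units at `v`, hence units at `B`
(`Dict.Below.valuation_le_one_iff` for `u`, `u⁻¹`); `PlOff.hasOrd_ord` for `π` gives `k` with
`|π|_B = |q|_B^k`, so `|q|_B = |q|_B^(k e)`, `k e = 1` (`HasOrd.unique`), `k = e = 1`. -/
theorem ord_algebraMap (hK : IsSField S K) (B : PlOff S) (a : Kˣ) :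
    B.ord (algebraMap K Qb (a : K)) = Exist.ord K (below S K B).1 (Additive.ofMul a) := by
  set v : Pl K := (below S K B).1 with hvdef
  have hv : Below K v B.1 := below_spec B
  have hq : (B.char : ℕ).Prime := B.char.2
  obtain ⟨π, hπ⟩ := Exist.exists_ord_eq_one v
  have hπ0 : algebraMap K Qb (π : K) ≠ 0 := by
    rw [Ne, map_eq_zero]
    exact π.ne_zero
  have hk : HasOrd B.1 (B.char : ℕ) (algebraMap K Qb (π : K)) (B.ord (algebraMap K Qb (π : K))) :=
    B.hasOrd_ord hπ0 (inQS_of_isSField hK _)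
  set k : ℤ := B.ord (algebraMap K Qb (π : K)) with hkdef
  -- the prime number `q` as a unit of `K`
  have hqK : ((B.char : ℕ) : K) ≠ 0 := Nat.cast_ne_zero.mpr hq.ne_zero
  set e : ℤ := Exist.ord K v (Additive.ofMul (Units.mk0 ((B.char : ℕ) : K) hqK)) with hedef
  have h1 := ord_valuation_eq_zpow hv π hπ (Units.mk0 ((B.char : ℕ) : K) hqK)
  rw [Units.val_mk0, map_natCast, ← hedef] at h1
  have h2 : HasOrd B.1 (B.char : ℕ) ((B.char : ℕ) : Qb) (k * e) := by
    unfold HasOrd at hk ⊢
    rw [zpow_mul, ← hk]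
    exact h1
  have h3 : HasOrd B.1 (B.char : ℕ) ((B.char : ℕ) : Qb) 1 := by
    unfold HasOrd
    rw [zpow_one]
  have hke : k * e = 1 := HasOrd.unique B.liesOver_char hq h2 h3
  have he0 : 0 ≤ e := by
    have h4 : v.valuation K ((B.char : ℕ) : K) ≤ 1 := by
      have := v.valuation_le_one (K := K) ((B.char : ℕ) : 𝓞 K)
      simpa using this
    have h5 := Exist.valuation_eq_exp_neg_ord v (Units.mk0 ((B.char : ℕ) : K) hqK)
    rw [Units.val_mk0, ← hedef] at h5
    rw [h5, ← WithZero.exp_zero, WithZero.exp_le_exp] at h4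
    omega
  have hk1 : k = 1 := by
    rcases Int.eq_one_or_neg_one_of_mul_eq_one' hke with ⟨h, -⟩ | ⟨-, h⟩
    · exact h
    · omega
  refine PlOff.ord_eq ?_
  unfold HasOrd at hk ⊢
  rw [ord_valuation_eq_zpow hv π hπ a, hk, hk1, zpow_one]

end Ord

end Fermat.Agent.S55.Units.Cl
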