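/-
S55 / block UNITS-CL, section LS : `H^0(Map(X_K, ℚ_Sˣ)) = Kˣ`, and the divisor map `valG` induces
`Exist.divT` on invariants.   Owner: helper234.
-/
import Fermat.Agent.S55.Units.Cl.Div
import Fermat.Agent.S55.Units.Cl.Ord
import Fermat.Agent.S55.Dict.Fix

set_option autoImplicit false

namespace Fermat.Agent.S55.Units.Cl

open scoped Pointwise
open NumberField IsDedekindDomain
open Fermat.Agent.S55.NIT (Pl)
open Fermat.Agent.S55.Dict (fixG kx Below OverQ)

variable {S : Finset Nat.Primes} {K : Type} [Field K] [NumberField K] [Algebra K Qb]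

/-! ## Section LS : file `Units/Cl/LS.lean` (`H^0(Map(X_K, ℚ_Sˣ)) = Kˣ`, the divisor map) -/
section LS

theorem kx_mem_LSsub (hK : IsSField S K) (a : Kˣ) : kx K a ∈ (LSsub S).toAddSubgroup :=
  (mem_LSsub_iff _).2 (inQS_of_isSField hK (a : K))

/-- `Kˣ → ((ℚ_S)ˣ)^{U_K}`. -/
noncomputable def lsHom (hK : IsSField S K) : Additive Kˣ →+ invU (fixG K) (LSx S) where
  toFun a := ⟨(LSsub S).mkMod (kx K (Additive.toMul a)) (kx_mem_LSsub hK _), fun u hu => by
    apply (LSsub S).incl_injective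
    rw [GSub.incl_smul, GSub.incl_mkMod]
    exact Dict.smul_kx_of_mem hu _⟩
  map_zero' := by
    apply Subtype.ext
    apply (LSsub S).incl_injective
    rw [GSub.incl_mkMod]
    show kx K 1 = (LSsub S).incl 0
    rw [map_zero]
    simp [kx]
  map_add' a b := by
    apply Subtype.ext
    apply (LSsub S).incl_injective
    show (LSsub S).incl ((LSsub S).mkMod _ _) =
      (LSsub S).incl ((LSsub S).mkMod _ _ + (LSsub S).mkMod _ _)
    rw [map_add (LSsub S).incl, GSub.incl_mkMod, GSub.incl_mkMod, GSub.incl_mkMod]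
    exact Dict.kx_mul _ _

theorem incl_lsHom (hK : IsSField S K) (a : Additive Kˣ) :
    (LSsub S).incl (lsHom hK a : LSx S) = kx K (Additive.toMul a) := rfl

theorem lsHom_bijective (hK : IsSField S K) : Function.Bijective (lsHom (S := S) hK) := by
  constructor
  · intro a b h
    have h1 : kx K (Additive.toMul a) = kx K (Additive.toMul b) := by
      rw [← incl_lsHom hK, ← incl_lsHom hK, h]
    have h2 : algebraMap K Qb ((Additive.toMul a : Kˣ) : K) =
        algebraMap K Qb ((Additive.toMul b : Kˣ) : K) := congrArg Kx.val h1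
    exact Additive.toMul.injective (Units.ext ((algebraMap K Qb).injective h2))
  · intro x
    obtain ⟨z, hz⟩ := Dict.exists_algebraMap_eq_of_fixed (K := K)
      ((LSsub S).incl (x : LSx S)).val (fun g hg => by
        rw [← Kx.val_smul, ← GSub.incl_smul, x.2 g hg])
    have hz0 : z ≠ 0 := by
      rintro rfl
      rw [map_zero] at hz
      exact (Additive.toMul ((LSsub S).incl (x : LSx S)) : Qbˣ).ne_zero hz.symm
    refine ⟨Additive.ofMul (Units.mk0 z hz0), ?_⟩
    apply Subtype.ext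
    apply (LSsub S).incl_injective
    rw [incl_lsHom]
    apply Additive.toMul.injective
    apply Units.ext
    exact hz

/-- Route: `sh0`; an element of `ℚ̄` fixed by `fixG K` comes from `K`
(`Dict.exists_algebraMap_eq_of_fixed`). -/
theorem exists_lsEquiv (hK : IsSField S K) :
    ∃ e : inv0 GQ (IndMod (GQ ⧸ fixG K) (LSx S)) ≃+ Additive Kˣ,
      ∀ f : inv0 GQ (IndMod (GQ ⧸ fixG K) (LSx S)),
        (LSsub S).incl ((f : IndMod (GQ ⧸ fixG K) (LSx S)) ((1 : GQ) : GQ ⧸ fixG K)) =
          kx K (Additive.toMul (e f)) := by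
  refine ⟨(sh0 (fixG K) (LSx S)).trans
    (AddEquiv.ofBijective (lsHom hK) (lsHom_bijective hK)).symm, fun f => ?_⟩
  rw [← incl_lsHom hK, ← coe_sh0]
  congr 2
  exact ((AddEquiv.ofBijective (lsHom hK) (lsHom_bijective hK)).apply_symm_apply _).symm

/-- `H^0(Map(X_K, ℚ_Sˣ)) = Kˣ`. -/
noncomputable def lsEquiv (hK : IsSField S K) :
    inv0 GQ (IndMod (GQ ⧸ fixG K) (LSx S)) ≃+ Additive Kˣ := (exists_lsEquiv hK).choose

theorem lsEquiv_spec (hK : IsSField S K) (f : inv0 GQ (IndMod (GQ ⧸ fixG K) (LSx S))) :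
    (LSsub S).incl ((f : IndMod (GQ ⧸ fixG K) (LSx S)) ((1 : GQ) : GQ ⧸ fixG K)) =
      kx K (Additive.toMul (lsEquiv hK f)) := (exists_lsEquiv hK).choose_spec f

/-- the divisor map `valG` induces `Exist.divT` on invariants -/
theorem divEquiv_valG (hK : IsSField S K) (f : inv0 GQ (IndMod (GQ ⧸ fixG K) (LSx S))) :
    divEquiv hK (inv0.map (IndMod.mapCoeff (GQ ⧸ fixG K) (valG S)) f) =
      Exist.divT K (SK S K) (lsEquiv hK f) := by
  ext v
  obtain ⟨B, rfl⟩ := below_surjective (S := S) (K := K) v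
  rw [divEquiv_apply, Exist.divT_apply, inv0.coe_map]
  show valG S ((f : IndMod (GQ ⧸ fixG K) (LSx S)) ((1 : GQ) : GQ ⧸ fixG K)) B = _
  rw [valG_apply, lsEquiv_spec hK f, Dict.kx_val, ord_algebraMap hK]
  rfl

end LS

end Fermat.Agent.S55.Units.Cl
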