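/-
S55 / block UNITS-CL : open subgroups of `GQ` are the groups fixing a number field
(infinite Galois theory).  Owner: helper240.
-/
import Fermat.Agent.S55.Units.Cl.Defs

set_option autoImplicit false

namespace Fermat.Agent.S55.Units.Cl

open scoped Pointwise
open NumberField IsDedekindDomain
open Fermat.Agent.S55.NIT (Pl)
open Fermat.Agent.S55.Dict (fixG kx Below OverQ)

/-! ## Section Field : file `Units/Cl/Field.lean` (infinite Galois theory; Mathlib + `Arith/Defs`) -/
section Field

theorem Field.isGalois_rat_Qb : IsGalois ℚ Qb := by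
  have h : (DivisionRing.toRatAlgebra : Algebra ℚ (AlgebraicClosure ℚ)) =
      AlgebraicClosure.instAlgebra ℚ := Subsingleton.elim _ _
  have : IsAlgClosure ℚ (AlgebraicClosure ℚ) := by
    rw [h]
    infer_instance
  infer_instance

/-- Every open subgroup of `GQ` is the group fixing a number field.
Route: `N = F₀.fixingSubgroup ≤ U`, `F₀` finite; `U` is open hence closed
(`IntermediateField.fixingSubgroup_isOpen`, `Subgroup.isOpen_mono`, `Subgroup.isClosed_of_isOpen`);
`K := ↥(IntermediateField.fixedField U) ≤ F₀`; `InfiniteGalois.fixingSubgroup_fixedField`. -/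
theorem exists_field_of_isOpen (U : Subgroup GQ) (hU : lvlAll.IsOpen U) :
    ∃ (K : Type) (_ : Field K) (_ : NumberField K) (_ : Algebra K Qb), fixG K = U := by
  obtain ⟨_, ⟨F₀, hf, -, rfl⟩, hle⟩ := hU
  have := Field.isGalois_rat_Qb
  have hf' : @FiniteDimensional ℚ F₀ _ _ (IntermediateField.module' F₀) := by
    convert hf
  have hopen : IsOpen (U : Set GQ) :=
    Subgroup.isOpen_mono hle (IntermediateField.fixingSubgroup_isOpen F₀)
  have hclosed : IsClosed (U : Set GQ) := Subgroup.isClosed_of_isOpen U hopen
  have hfix : (IntermediateField.fixedField U).fixingSubgroup = U :=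
    InfiniteGalois.fixingSubgroup_fixedField (k := ℚ) (K := Qb) ⟨U, hclosed⟩
  have hKle : IntermediateField.fixedField U ≤ F₀ := by
    have h1 : IntermediateField.fixedField U ≤ IntermediateField.fixedField F₀.fixingSubgroup :=
      fun x hx g => hx ⟨g.1, hle g.2⟩
    rwa [InfiniteGalois.fixedField_fixingSubgroup] at h1
  have hfin : @FiniteDimensional ℚ (IntermediateField.fixedField U) _ _
      (IntermediateField.module' _) :=
    FiniteDimensional.of_injective (IntermediateField.inclusion hKle).toLinearMap
      (IntermediateField.inclusion hKle).injective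
  refine ⟨↥(IntermediateField.fixedField U), inferInstance, ?_, inferInstance, ?_⟩
  · refine { to_charZero := inferInstance, to_finiteDimensional := ?_ }
    convert hfin
  · conv_rhs => rw [← hfix]
    ext g
    rw [Dict.mem_fixG, IntermediateField.mem_fixingSubgroup_iff]
    exact ⟨fun h x hx => h ⟨x, hx⟩, fun h x => h x.1 x.2⟩

theorem exists_sField_of_isOpen (S : Finset Nat.Primes) (U : Subgroup GQ)
    (hU : (lvlS S).IsOpen U) :
    ∃ (K : Type) (_ : Field K) (_ : NumberField K) (_ : Algebra K Qb),
      fixG K = U ∧ IsSField S K := by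
  have hU' : lvlAll.IsOpen U := by
    obtain ⟨N, hN, hle⟩ := hU
    obtain ⟨N', hN', hle'⟩ := lvlS_le_lvlAll S N hN
    exact ⟨N', hN', hle'.trans hle⟩
  obtain ⟨K, i1, i2, i3, hK⟩ := exists_field_of_isOpen U hU'
  refine ⟨K, i1, i2, i3, hK, ?_⟩
  unfold IsSField
  rw [hK]
  exact hU

end Field

end Fermat.Agent.S55.Units.Cl
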