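/-
S55 / block UNITS-CL, task UNITS-CL-Mu (owner helper296): `μ_p ⊆ K` in the two languages, and
`|GQ ⧸ fixG K| = [K : ℚ]`.
-/
import Fermat.Agent.S55.Units.Cl.Defs
import Fermat.Agent.S55.Dict.Fix
import Fermat.Agent.S55.Units.Mods
import Fermat.Agent.S55.Formal.Contract

set_option autoImplicit false

namespace Fermat.Agent.S55.Units.Cl

open scoped Pointwise
open NumberField IsDedekindDomain
open Fermat.Agent.S55.NIT (Pl)
open Fermat.Agent.S55.Dict (fixG kx Below OverQ)

variable {S : Finset Nat.Primes} {K : Type} [Field K] [NumberField K] [Algebra K Qb]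

/-! ## Section Mu : file `Units/Cl/Mu.lean` -/
section Mu

/-- `μ_p ⊆ K` in the two languages -/
theorem exists_primitiveRoot {p : ℕ} (hp : p.Prime) (h : ActsTrivially (fixG K) (Mu p)) :
    ∃ ζ : K, IsPrimitiveRoot ζ p := by
  have : NeZero p := ⟨hp.ne_zero⟩
  obtain ⟨ζ₀, hζ₀⟩ := HasEnoughRootsOfUnity.exists_primitiveRoot Qb p
  have hne : ζ₀ ≠ 0 := hζ₀.ne_zero hp.ne_zero
  let x : Kx := Additive.ofMul (Units.mk0 ζ₀ hne)
  have hxv : x.val = ζ₀ := rfl
  have hx : x ∈ (muSub p).toAddSubgroup := by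
    rw [mem_muSub_iff, hxv, hζ₀.pow_eq_one]
  obtain ⟨z, hz⟩ := Dict.exists_algebraMap_eq_of_fixed (K := K) ζ₀ (by
    intro g hg
    have h1 := h g hg ((muSub p).mkMod x hx)
    have h2 := congrArg (fun y => ((muSub p).incl y).val) h1
    exact h2)
  refine ⟨z, (IsPrimitiveRoot.map_iff_of_injective (f := algebraMap K Qb)
    (algebraMap K Qb).injective).1 ?_⟩
  rw [hz]
  exact hζ₀

/-- `|X_K| = [K : ℚ]` -/
theorem card_quot_fixG : Nat.card (GQ ⧸ fixG K) = Module.finrank ℚ K := by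
  have : IsGalois ℚ Qb := Fermat.Agent.Lib.Frobenius.isGalois_rat
  have : Algebra.IsIntegral ℚ Qb := Fermat.Agent.Lib.Frobenius.isIntegral_rat
  let φ : GQ → (K →+* Qb) := fun g => (g : Qb →+* Qb).comp (algebraMap K Qb)
  have hφ : ∀ a b : GQ, φ a = φ b ↔ a⁻¹ * b ∈ fixG K := by
    intro a b
    rw [Dict.mem_fixG]
    constructor
    · intro h x
      have h1 : a (algebraMap K Qb x) = b (algebraMap K Qb x) := RingHom.congr_fun h x
      show a.symm (b (algebraMap K Qb x)) = algebraMap K Qb x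
      rw [AlgEquiv.symm_apply_eq, h1]
    · intro h
      ext x
      have h1 : a.symm (b (algebraMap K Qb x)) = algebraMap K Qb x := h x
      rw [AlgEquiv.symm_apply_eq] at h1
      exact h1.symm
  let f : GQ ⧸ fixG K → (K →+* Qb) :=
    Quotient.lift φ (fun a b hab => (hφ a b).mpr (QuotientGroup.leftRel_apply.mp hab))
  have hinj : Function.Injective f := by
    rintro ⟨a⟩ ⟨b⟩ h
    exact Quotient.sound (QuotientGroup.leftRel_apply.mpr ((hφ a b).mp h))
  have hsurj : Function.Surjective f := by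
    intro ψ
    let σ : Qb →ₐ[ℚ] Qb := (ψ.toRatAlgHom).liftNormal Qb
    have hσ : ∀ x : K, σ (algebraMap K Qb x) = ψ x := fun x =>
      AlgHom.liftNormal_commutes (ψ.toRatAlgHom) Qb x
    let g : GQ := AlgEquiv.ofBijective σ (Algebra.IsAlgebraic.algHom_bijective σ)
    refine ⟨(g : GQ ⧸ fixG K), ?_⟩
    ext x
    exact hσ x
  rw [Nat.card_congr (Equiv.ofBijective f ⟨hinj, hsurj⟩), Nat.card_eq_fintype_card,
    NumberField.Embeddings.card K Qb]

end Mu

end Fermat.Agent.S55.Units.Cl
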