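/-
S55 / block UNITS-CL : `H^0(Map(X_K, E_S)) = S_K`-units of `K` (task UNITS-CL-ES, owner helper229).
-/
import Fermat.Agent.S55.Units.Cl.Ord
import Fermat.Agent.S55.Dict.Fix

set_option autoImplicit false
set_option linter.unusedSectionVars false

namespace Fermat.Agent.S55.Units.Cl

open scoped Pointwise
open NumberField IsDedekindDomain
open Fermat.Agent.S55.NIT (Pl)
open Fermat.Agent.S55.Dict (fixG kx Below OverQ)

variable {S : Finset Nat.Primes} {K : Type} [Field K] [NumberField K] [Algebra K Qb]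

/-! ## Section ES : file `Units/Cl/ES.lean` (`H^0(Map(X_K, E_S)) = S_K`-units of `K`) -/
section ES

theorem algebraMap_unit_ne_zero (a : Kˣ) : algebraMap K Qb (a : K) ≠ 0 :=
  (map_ne_zero (algebraMap K Qb)).2 a.ne_zero

/-- the valuation at `B` of an element of `Kˣ` is trivial iff the valuation at the prime below is -/
theorem valuation_algebraMap_eq_one_iff (hK : IsSField S K) (B : PlOff S) (a : Kˣ) :
    B.1.valuation (algebraMap K Qb (a : K)) = 1 ↔ (below S K B).1.valuation K (a : K) = 1 := by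
  rw [← Exist.ord_eq_zero_iff, ← ord_algebraMap hK B a]
  constructor
  · intro h
    exact PlOff.ord_eq ((hasOrd_zero_iff _ _ _).2 h)
  · intro h
    have h2 := B.hasOrd_ord (algebraMap_unit_ne_zero a) (inQS_of_isSField hK (a : K))
    rw [h] at h2
    exact (hasOrd_zero_iff _ _ _).1 h2

/-- an element of `Kˣ` is an `S`-unit of `ℚ_S` iff it is an `S_K`-unit of `K` -/
theorem kx_mem_ESsub_iff (hK : IsSField S K) (a : Kˣ) :
    kx K a ∈ (ESsub S).toAddSubgroup ↔ a ∈ (SK S K : Set (Pl K)).unit K := by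
  rw [mem_ESsub_iff, Dict.kx_val]
  constructor
  · rintro ⟨-, h⟩ v hv
    have hv' : v ∉ SK S K := fun hh => hv (Finset.mem_coe.2 hh)
    obtain ⟨B, hB⟩ := exists_plOff_above v hv'
    have h1 := (valuation_algebraMap_eq_one_iff hK B a).1 (h B.1 B.2)
    rwa [below_eq_of hB] at h1
  · intro h
    refine ⟨inQS_of_isSField hK (a : K), fun A hA => ?_⟩
    obtain ⟨B, rfl⟩ : ∃ B : PlOff S, B.1 = A := ⟨⟨A, hA⟩, rfl⟩
    refine (valuation_algebraMap_eq_one_iff hK B a).2 (h _ ?_)
    exact fun hh => (below S K B).2 (Finset.mem_coe.1 hh)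

theorem kx_injective : Function.Injective (kx K) := by
  intro a b h
  have h1 : (kx K a).val = (kx K b).val := by rw [h]
  rw [Dict.kx_val, Dict.kx_val] at h1
  exact Units.ext ((algebraMap K Qb).injective h1)

/-- the map `S_K`-units `→ (E_S)^{U_K}`. -/
noncomputable def esHom (hK : IsSField S K) :
    Additive ↥((SK S K : Set (Pl K)).unit K) →+ invU (fixG K) (ESx S) :=
  AddMonoidHom.mk' (fun a =>
    ⟨(ESsub S).mkMod (kx K ((Additive.toMul a : ↥((SK S K : Set (Pl K)).unit K)) : Kˣ))
      ((kx_mem_ESsub_iff hK _).2 (Additive.toMul a).2), fun u hu =>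
      (ESsub S).incl_injective (Dict.smul_kx_of_mem hu _)⟩) (by
    intro a b
    apply Subtype.ext
    apply (ESsub S).incl_injective
    exact Dict.kx_mul _ _)

theorem incl_esHom (hK : IsSField S K) (a : Additive ↥((SK S K : Set (Pl K)).unit K)) :
    (ESsub S).incl (esHom hK a : ESx S) =
      kx K ((Additive.toMul a : ↥((SK S K : Set (Pl K)).unit K)) : Kˣ) := rfl

theorem esHom_bijective (hK : IsSField S K) : Function.Bijective (esHom (S := S) (K := K) hK) := by
  constructor
  · intro a b h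
    have h1 := congrArg (fun x : invU (fixG K) (ESx S) => (ESsub S).incl (x : ESx S)) h
    simp only [incl_esHom] at h1
    exact Additive.toMul.injective (Subtype.ext (kx_injective h1))
  · intro x
    have hfix : ∀ g ∈ fixG K, g ((ESsub S).incl (x : ESx S)).val = ((ESsub S).incl (x : ESx S)).val := by
      intro g hg
      rw [← Kx.val_smul, ← GSub.incl_smul, x.2 g hg]
    obtain ⟨z, hz⟩ := Dict.exists_algebraMap_eq_of_fixed _ hfix
    have hz0 : z ≠ 0 := by
      rintro rfl
      rw [map_zero] at hz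
      exact (Additive.toMul ((ESsub S).incl (x : ESx S)) : Qbˣ).ne_zero hz.symm
    have hkx : kx K (Units.mk0 z hz0) = (ESsub S).incl (x : ESx S) := by
      apply Additive.toMul.injective
      apply Units.ext
      exact hz
    have hmem : Units.mk0 z hz0 ∈ (SK S K : Set (Pl K)).unit K := by
      rw [← kx_mem_ESsub_iff hK, hkx]
      exact (ESsub S).incl_mem _
    refine ⟨Additive.ofMul ⟨Units.mk0 z hz0, hmem⟩, ?_⟩
    apply Subtype.ext
    apply (ESsub S).incl_injective
    exact hkx

theorem exists_esEquiv (hK : IsSField S K) :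
    ∃ e : inv0 GQ (IndMod (GQ ⧸ fixG K) (ESx S)) ≃+ Additive ↥((SK S K : Set (Pl K)).unit K),
      ∀ f : inv0 GQ (IndMod (GQ ⧸ fixG K) (ESx S)),
        (ESsub S).incl ((f : IndMod (GQ ⧸ fixG K) (ESx S)) ((1 : GQ) : GQ ⧸ fixG K)) =
          kx K ((Additive.toMul (e f) : ↥((SK S K : Set (Pl K)).unit K)) : Kˣ) := by
  refine ⟨(sh0 (fixG K) (ESx S)).trans (AddEquiv.ofBijective (esHom hK) (esHom_bijective hK)).symm,
    fun f => ?_⟩
  rw [← incl_esHom hK, AddEquiv.trans_apply]
  have := (AddEquiv.ofBijective (esHom hK) (esHom_bijective hK)).apply_symm_apply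
    (sh0 (fixG K) (ESx S) f)
  rw [AddEquiv.ofBijective_apply] at this
  rw [this, coe_sh0]

end ES

end Fermat.Agent.S55.Units.Cl
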