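/-
S55 / block UNITS-CL, file `Units/Cl/Card.lean` (task UNITS-CL-Card):
`|H^0_S(E_X) / p| = p^(#S_K + r₂)` and `2 r₂ = |X|`.
-/
import Fermat.Agent.S55.Units.Cl.ES
import Fermat.Agent.S55.Units.Cl.Mu
import Fermat.Agent.S55.NIT.SI.SUnitIndex
import Fermat.Agent.S55.NIT.SI.TotallyComplex

set_option autoImplicit false

namespace Fermat.Agent.S55.Units.Cl

open scoped Pointwise
open NumberField IsDedekindDomain
open Fermat.Agent.S55.NIT (Pl)
open Fermat.Agent.S55.Dict (fixG kx Below OverQ)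

variable {S : Finset Nat.Primes} {K : Type} [Field K] [NumberField K] [Algebra K Qb]

/-! ## Section Card : file `Units/Cl/Card.lean` (uses ES, Mu, `NIT.SI.sUnitIndex`,
`NIT.SI.finrank_eq_two_mul`, `Hsm.H0equiv`) -/
section Card

/-- pure algebra: the index of `pA` is invariant under isomorphism, additive/multiplicative -/
theorem index_nsmul_range_eq {A : Type*} [AddCommGroup A] {M : Type*} [CommGroup M]
    (e : A ≃+ Additive M) (p : ℕ) :
    (nsmulAddMonoidHom p : A →+ A).range.index = (powMonoidHom p : M →* M).range.index := by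
  rw [NIT.SI.index_range_pow_eq_nsmulIndex, ← NIT.SI.nsmulIndex_congr p e]
  rfl

/-- `|H^0_S(E_X) / p| = p^(#S_K + r₂)` and `2 r₂ = |X|`. -/
theorem index_nsmul_H0_ES (hK : IsSField S K) {p : ℕ} (hp : p.Prime) (hp2 : p ≠ 2)
    (hμ : ActsTrivially (fixG K) (Mu p)) :
    (nsmulAddMonoidHom p : Hsm (lvlS S) (IndMod (GQ ⧸ fixG K) (ESx S)) 0 →+
        Hsm (lvlS S) (IndMod (GQ ⧸ fixG K) (ESx S)) 0).range.index =
      p ^ ((SK S K).card + InfinitePlace.nrComplexPlaces K) ∧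
    2 * InfinitePlace.nrComplexPlaces K = Nat.card (GQ ⧸ fixG K) := by
  obtain ⟨ζ, hζ⟩ := exists_primitiveRoot (K := K) hp hμ
  obtain ⟨e, -⟩ := exists_esEquiv (S := S) (K := K) hK
  refine ⟨?_, ?_⟩
  · rw [index_nsmul_range_eq ((Hsm.H0equiv (𝓝 := lvlS S)
      (A := IndMod (GQ ⧸ fixG K) (ESx S))).trans e) p]
    exact NIT.SI.sUnitIndex hp hp2 hζ (SK S K)
  · rw [card_quot_fixG, NIT.SI.finrank_eq_two_mul hp hp2 hζ]

end Card

end Fermat.Agent.S55.Units.Cl
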