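/-
S55 / block UNITS-CL : the sequence `0 → E_S → ℚ_Sˣ → P_S → 0`.
-/
import Fermat.Agent.S55.Units.Cl.Defs
import Fermat.Agent.S55.Units.Mods
import Fermat.Agent.S55.Coh.LES

set_option autoImplicit false

namespace Fermat.Agent.S55.Units.Cl

open scoped Pointwise
open NumberField IsDedekindDomain
open Fermat.Agent.S55.NIT (Pl)
open Fermat.Agent.S55.Dict (fixG kx Below OverQ)

variable {S : Finset Nat.Primes} {K : Type} [Field K] [NumberField K] [Algebra K Qb]

/-! ## Section Seq : file `Units/Cl/Seq.lean` (the sequence `0 → E_S → ℚ_Sˣ → P_S → 0`) -/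
section Seq

variable (S) in
/-- The inclusion `E_S → ℚ_Sˣ`. -/
noncomputable def esToLs : ESx S →+[GQ] LSx S :=
  GSub.codRestrict (LSsub S) (ESsub S).inclG fun a => ((ESsub S).incl_mem a).1

theorem incl_esToLs (a : ESx S) : (LSsub S).incl (esToLs S a) = (ESsub S).incl a := rfl

theorem shortExact_es_ls : ShortExact (esToLs S) (GSub.rangeRestrict (valG S)) where
  inj := by
    intro a b h
    apply (ESsub S).incl_injective
    rw [← incl_esToLs, ← incl_esToLs, h]
  exact := by
    intro b
    have h1 : GSub.rangeRestrict (valG S) b = 0 ↔ valG S b = 0 := by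
      constructor
      · intro h
        have := congrArg (GSub.range (valG S)).incl h
        simpa using this
      · intro h
        apply (GSub.range (valG S)).incl_injective
        simpa using h
    rw [h1, valG_eq_zero_iff]
    constructor
    · intro h
      refine ⟨(ESsub S).mkMod _ h, ?_⟩
      apply (LSsub S).incl_injective
      rw [incl_esToLs, GSub.incl_mkMod]
    · rintro ⟨a, rfl⟩
      rw [incl_esToLs]
      exact (ESsub S).incl_mem a
  surj := GSub.rangeRestrict_surjective _

end Seq

end Fermat.Agent.S55.Units.Cl
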