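/-
S55 / block UNITS-CL : finiteness of `H^1_S(E_X)`.
-/
import Fermat.Agent.S55.Units.Cl.Seq
import Fermat.Agent.S55.Units.Cl.LS
import Fermat.Agent.S55.Exist.FiniteCoker
import Fermat.Agent.S55.Coh.LESExact
import Fermat.Agent.S55.Coh.IndApi

set_option autoImplicit false

namespace Fermat.Agent.S55.Units.Cl

open scoped Pointwise
open NumberField IsDedekindDomain
open Fermat.Agent.S55.NIT (Pl)
open Fermat.Agent.S55.Dict (fixG kx Below OverQ)

variable {S : Finset Nat.Primes} {K : Type} [Field K] [NumberField K] [Algebra K Qb]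

/-! ## Section H1 : file `Units/Cl/H1.lean` (finiteness of `H^1_S(E_X)`) -/
section H1

/-- pure algebra -/
theorem finite_of_surjective_of_index {B C D : Type*} [AddCommGroup B] [AddCommGroup C]
    [AddCommGroup D] (δ : B →+ C) (hδ : Function.Surjective δ) (j : B →+ D)
    (R : AddSubgroup D) (hR : R.index ≠ 0) (h : ∀ b, j b ∈ R → δ b = 0) : Finite C := by
  classical
  have : R.FiniteIndex := ⟨hR⟩
  have hfin : Finite (D ⧸ R) := AddSubgroup.finite_quotient_of_finiteIndex
  let f : D ⧸ R → C := fun t =>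
    if ht : ∃ b : B, (QuotientAddGroup.mk (j b) : D ⧸ R) = t then δ ht.choose else 0
  refine Finite.of_surjective f fun c => ?_
  obtain ⟨b, rfl⟩ := hδ c
  have hex : ∃ b' : B, (QuotientAddGroup.mk (j b') : D ⧸ R) = QuotientAddGroup.mk (j b) := ⟨b, rfl⟩
  refine ⟨QuotientAddGroup.mk (j b), ?_⟩
  have e : f (QuotientAddGroup.mk (j b)) = δ hex.choose := dif_pos hex
  rw [e]
  have h1 := QuotientAddGroup.eq.mp hex.choose_spec
  have h2 : j (b - hex.choose) ∈ R := by
    rw [map_sub, sub_eq_neg_add]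
    exact h1
  have h3 := h _ h2
  rw [map_sub, sub_eq_zero] at h3
  exact h3.symm

/-- `inv0.map` of an injective map is injective. -/
theorem inv0_map_injective {G : Type} [Group G] {A B : Type} [AddCommGroup A]
    [DistribMulAction G A] [AddCommGroup B] [DistribMulAction G B] (φ : A →+[G] B)
    (hφ : Function.Injective φ) : Function.Injective (inv0.map φ) := by
  intro a b hab
  apply Subtype.ext
  apply hφ
  exact congrArg Subtype.val hab

/-- `mapCoeff` of an injective map is injective. -/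
theorem mapCoeff_injective {G : Type} [Group G] {A B : Type} [AddCommGroup A]
    [DistribMulAction G A] [AddCommGroup B] [DistribMulAction G B] (X : Type) [MulAction G X]
    (φ : A →+[G] B) (hφ : Function.Injective φ) :
    Function.Injective (IndMod.mapCoeff X φ) := by
  intro f f' hff
  ext x
  exact hφ (DFunLike.congr_fun hff x)

/-- `H^1_S(E_X)` is finite (it embeds in `Cl_S(K)`).  `hU2` is Hilbert 90 for `ℚ_S` (block INF).
Route: `IndMod.shortExact_mapCoeff X shortExact_es_ls`, `Hsm.delta_surjective` (with `hU2`),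
`Hsm.exact_map_delta`; `finite_of_surjective_of_index` with `B = H^0(P_X)`,
`j = divEquiv ∘ inv0.map (mapCoeff inclG) ∘ H0equiv`, `R = (Exist.divT K (SK S K)).range`
(`Exist.index_range_divT_ne_zero`): if `j b = divT a` then `b` is the image of
`(lsEquiv hK).symm a` by `divEquiv_valG` and injectivity of `divEquiv`, `inclG`. -/
theorem finite_H1_ES (hK : IsSField S K)
    (hU2 : ∀ x : Hsm (lvlS S) (IndMod (GQ ⧸ fixG K) (LSx S)) 1, x = 0) :
    Finite (Hsm (lvlS S) (IndMod (GQ ⧸ fixG K) (ESx S)) 1) := by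
  have : SmoothSet (lvlS S) (GQ ⧸ fixG K) := SmoothSet.quotient _ hK
  have : Smooth (lvlS S) (LSx S) := inferInstanceAs (Smooth (lvlS S) (smoothPart (lvlS S) Kx).Mod)
  have hse := IndMod.shortExact_mapCoeff (GQ ⧸ fixG K) (shortExact_es_ls (S := S))
  let ι := IndMod.mapCoeff (GQ ⧸ fixG K) (GSub.range (valG S)).inclG
  have hι : Function.Injective (inv0.map ι) :=
    inv0_map_injective _ (mapCoeff_injective _ _ (GSub.inclG_injective _))
  let j : Hsm (lvlS S) (IndMod (GQ ⧸ fixG K) (GSub.range (valG S)).Mod) 0 →+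
      Exist.Dv K (SK S K) :=
    (divEquiv hK).toAddMonoidHom.comp ((inv0.map ι).comp Hsm.H0equiv.toAddMonoidHom)
  refine finite_of_surjective_of_index (Hsm.delta (𝓝 := lvlS S) hse 0)
    (Hsm.delta_surjective hse 0 hU2) j (Exist.divT K (SK S K)).range
    (Exist.index_range_divT_ne_zero _) ?_
  rintro b ⟨a, ha⟩
  set f := (lsEquiv hK).symm a with hf
  have h1 := divEquiv_valG hK f
  rw [hf, AddEquiv.apply_symm_apply, ha] at h1
  have h2 : inv0.map (IndMod.mapCoeff (GQ ⧸ fixG K) (valG S)) ((lsEquiv hK).symm a) =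
      inv0.map ι (Hsm.H0equiv b) := (divEquiv hK).injective h1
  have h3 : inv0.map (IndMod.mapCoeff (GQ ⧸ fixG K) (valG S)) ((lsEquiv hK).symm a) =
      inv0.map ι (inv0.map (IndMod.mapCoeff (GQ ⧸ fixG K) (GSub.rangeRestrict (valG S)))
        ((lsEquiv hK).symm a)) := rfl
  have h4 := hι (h3.symm.trans h2)
  refine (Hsm.exact_map_delta hse 0 b).2 ⟨Hsm.H0equiv.symm ((lsEquiv hK).symm a), ?_⟩
  rw [Hsm.map_H0equiv_symm, h4, AddEquiv.symm_apply_apply]

end H1

end Fermat.Agent.S55.Units.Cl
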