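/-
S55 / block UNITS-CL : `Units/Cl/Orbits.lean`.  Decomposition-group orbits on `X_K = GQ ⧸ fixG K` are the
primes of `K` over `q`; the cardinality of `S_K`.
-/
import Fermat.Agent.S55.Units.Cl.Defs
import Fermat.Agent.S55.Dict.Below

set_option autoImplicit false

namespace Fermat.Agent.S55.Units.Cl

open scoped Pointwise
open NumberField IsDedekindDomain
open Fermat.Agent.S55.NIT (Pl)
open Fermat.Agent.S55.Dict (fixG kx Below OverQ)

variable {S : Finset Nat.Primes} {K : Type} [Field K] [NumberField K] [Algebra K Qb]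

/-! ## Section Orbits : file `Units/Cl/Orbits.lean` (decomposition-group orbits on `X_K` = primes) -/
section Orbits

/-- Route: `g (fixG K) ↦` the prime of `K` below `g⁻¹ • B` (`Dict.exists_place`, `Below.unique`);
constant on `Dec B`-orbits; injective on orbits (`Dict.Below.exists_smul`); onto
(`Dict.exists_below_smul`). -/
theorem card_orbits_eq (B : ValuationSubring Qb) (q : ℕ) (hq : q.Prime) (hB : B.LiesOverPrime q) :
    Nat.card (MulAction.orbitRel.Quotient (Dict.Dec B) (GQ ⧸ fixG K)) =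
      Nat.card {v : Pl K // OverQ K q v} := by
  classical
  let γ : {v : Pl K // OverQ K q v} → GQ := fun v => (Dict.exists_below_smul hq hB v.1 v.2).choose
  have hγ : ∀ v : {v : Pl K // OverQ K q v}, Below K v.1 ((γ v)⁻¹ • B) := fun v =>
    (Dict.exists_below_smul hq hB v.1 v.2).choose_spec
  let f : {v : Pl K // OverQ K q v} → MulAction.orbitRel.Quotient (Dict.Dec B) (GQ ⧸ fixG K) :=
    fun v => Quotient.mk'' ((γ v : GQ) : GQ ⧸ fixG K)
  have hf : Function.Bijective f := by
    constructor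
    · intro v v' h
      have h1 : ((γ v : GQ) : GQ ⧸ fixG K) ∈
          MulAction.orbit (Dict.Dec B) ((γ v' : GQ) : GQ ⧸ fixG K) := by
        have h2 := Quotient.eq''.1 h
        exact h2
      obtain ⟨d, hd⟩ := h1
      have hd' : (((d : GQ) * γ v' : GQ) : GQ ⧸ fixG K) = ((γ v : GQ) : GQ ⧸ fixG K) := hd
      rw [QuotientGroup.eq] at hd'
      -- `u = (d γ')⁻¹ γ ∈ fixG K`
      have e1 : (((d : GQ) * γ v')⁻¹ * γ v) • (γ v)⁻¹ • B = (γ v')⁻¹ • B := by
        have hdB : (d : GQ)⁻¹ • B = B := by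
          rw [inv_smul_eq_iff]
          exact (Dict.mem_Dec.1 d.2).symm
        rw [smul_smul, mul_assoc, mul_inv_cancel, mul_one, mul_inv_rev, mul_smul, hdB]
      have h3 : Below K v.1 ((γ v')⁻¹ • B) := by
        rw [← e1]
        exact (hγ v).smul hd'
      exact Subtype.ext (h3.unique (hγ v'))
    · intro x
      induction x using Quotient.inductionOn' with
      | h x =>
        induction x using QuotientGroup.induction_on with
        | H g =>
          obtain ⟨v, hv⟩ := Dict.exists_place (K := K) (g⁻¹ • B) hq (liesOverPrime_smul B g⁻¹ q hB)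
          have hvq : OverQ K q v := (hv.overQ_iff q).2 (liesOverPrime_smul B g⁻¹ q hB)
          refine ⟨⟨v, hvq⟩, ?_⟩
          obtain ⟨u, hu, hue⟩ := (hγ ⟨v, hvq⟩).exists_smul hv
          apply Quotient.eq''.2
          show ((γ ⟨v, hvq⟩ : GQ) : GQ ⧸ fixG K) ∈
            MulAction.orbit (Dict.Dec B) ((g : GQ) : GQ ⧸ fixG K)
          -- `d = γ u⁻¹ g⁻¹`
          have hd : γ ⟨v, hvq⟩ * u⁻¹ * g⁻¹ ∈ Dict.Dec B := by
            rw [Dict.mem_Dec, mul_smul, mul_smul, ← hue, inv_smul_smul, smul_inv_smul]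
          refine ⟨⟨_, hd⟩, ?_⟩
          show ((γ ⟨v, hvq⟩ * u⁻¹ * g⁻¹ * g : GQ) : GQ ⧸ fixG K) = _
          rw [QuotientGroup.eq]
          simpa using hu
  exact (Nat.card_congr (Equiv.ofBijective f hf)).symm

omit [Algebra K Qb] in
theorem Orbits.overQ_unique {q q' : ℕ} (hq : q.Prime) (hq' : q'.Prime) {v : Pl K}
    (h : OverQ K q v) (h' : OverQ K q' v) : q = q' := by
  by_contra hne
  have hc : IsCoprime (q : ℤ) (q' : ℤ) :=
    Nat.isCoprime_iff_coprime.2 ((Nat.coprime_primes hq hq').2 hne)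
  obtain ⟨a, b, hab⟩ := hc
  have h1 : (1 : 𝓞 K) ∈ v.asIdeal := by
    have e : (1 : 𝓞 K) = (a : 𝓞 K) * (q : 𝓞 K) + (b : 𝓞 K) * (q' : 𝓞 K) := by
      have := congrArg (Int.cast : ℤ → 𝓞 K) hab
      push_cast at this
      exact this.symm
    rw [e]
    exact v.asIdeal.add_mem (v.asIdeal.mul_mem_left _ h) (v.asIdeal.mul_mem_left _ h')
  exact v.isPrime.ne_top ((Ideal.eq_top_iff_one _).2 h1)

theorem card_SK : (SK S K).card = ∑ q ∈ S, Nat.card {v : Pl K // OverQ K ((q : Nat.Primes) : ℕ) v} := by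
  classical
  have e : SK S K = S.biUnion fun q => (finite_overQ K (q : ℕ) q.2.ne_zero).toFinset := by
    ext v
    simp [mem_SK]
  rw [e, Finset.card_biUnion]
  · apply Finset.sum_congr rfl
    intro q _
    have := Nat.card_coe_set_eq {v : Pl K | OverQ K (q : ℕ) v}
    rw [Set.ncard_eq_toFinset_card _ (finite_overQ K (q : ℕ) q.2.ne_zero)] at this
    exact this.symm
  · intro q _ q' _ hne
    show Disjoint _ _
    rw [Finset.disjoint_left]
    intro v hv hv'
    rw [Set.Finite.mem_toFinset] at hv hv'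
    exact hne (Subtype.ext (Orbits.overQ_unique q.2 q'.2 hv hv'))

end Orbits

end Fermat.Agent.S55.Units.Cl
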