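/-
S55 / block UNITS-CL : `Units/Cl/LocOrb.lean`.  The orbits of the local Galois groups on
`X_K = GQ ⧸ fixG K` are the primes of `K`.
-/
import Fermat.Agent.S55.Units.Cl.Orbits
import Fermat.Agent.S55.Units.T1.Defs
import Fermat.Agent.S55.Bridge.LocalImage

set_option autoImplicit false

namespace Fermat.Agent.S55.Units.Cl

open scoped Pointwise
open NumberField IsDedekindDomain
open Fermat.Agent.S55.NIT (Pl)
open Fermat.Agent.S55.Dict (fixG kx Below OverQ)

variable {S : Finset Nat.Primes} {K : Type} [Field K] [NumberField K] [Algebra K Qb]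

/-! ## Section LocOrb : file `Units/Cl/LocOrb.lean` (orbits of the local Galois groups = primes) -/
section LocOrb

/-- pure: the orbits of `H` on `ResSet f X` are the orbits of `f.range` on `X` -/
theorem card_orbits_resSet {H G : Type} [Group H] [Group G] (f : H →* G) (X : Type)
    [MulAction G X] :
    Nat.card (MulAction.orbitRel.Quotient H (ResSet f X)) =
      Nat.card (MulAction.orbitRel.Quotient f.range X) := by
  refine Nat.card_congr (Quotient.congr (ResSet.equiv f).symm fun a b => ?_)
  show a ∈ MulAction.orbit H b ↔ a.val ∈ MulAction.orbit f.range b.val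
  constructor
  · rintro ⟨h, rfl⟩
    exact ⟨⟨f h, h, rfl⟩, rfl⟩
  · rintro ⟨⟨_, h, rfl⟩, hh⟩
    exact ⟨h, ResSet.ext hh⟩

/-- `Bridge.range_localGaloisToGlobal` in the notation of `Arith/Defs.lean` -/
theorem range_ιv (q : Nat.Primes) : (ιv q).range = Dict.Dec (ExtCitation.primeLocalPlace q) := by
  have : Fact (q : ℕ).Prime := ⟨q.2⟩
  exact Fermat.Agent.S55.Bridge.range_localGaloisToGlobal (q : ℕ)

theorem primeLocalPlace_liesOverPrime (q : Nat.Primes) :
    (ExtCitation.primeLocalPlace q).LiesOverPrime (q : ℕ) := by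
  have : Fact (q : ℕ).Prime := ⟨q.2⟩
  exact Fermat.Agent.S55.Bridge.padicPlace_liesOverPrime (q : ℕ)

theorem card_locOrb (q : Nat.Primes) :
    Nat.card (LocOrb q (GQ ⧸ fixG K)) = Nat.card {v : Pl K // OverQ K (q : ℕ) v} := by
  rw [← card_orbits_eq (K := K) (ExtCitation.primeLocalPlace q) (q : ℕ) q.2
    (primeLocalPlace_liesOverPrime q), ← range_ιv q]
  exact card_orbits_resSet (ιv q) (GQ ⧸ fixG K)

/-- the number of places over `S`, counted as local orbits, is `#S_K` -/
theorem nPl_eq : nPl S (GQ ⧸ fixG K) = (SK S K).card := by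
  rw [card_SK]
  exact Finset.sum_congr rfl fun q _ => card_locOrb q

end LocOrb

end Fermat.Agent.S55.Units.Cl
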