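/-
S55 / block UNITS-CL : the export consumed by UNITS-T1 (`UnitInput S p (GQ ⧸ U)`), with Hilbert 90
for `ℚ_S` as a hypothesis (sorry-free).
-/
import Fermat.Agent.S55.Units.Cl.Field
import Fermat.Agent.S55.Units.Cl.Card
import Fermat.Agent.S55.Units.Cl.H1
import Fermat.Agent.S55.Units.Cl.LocOrb

set_option autoImplicit false

namespace Fermat.Agent.S55.Units.Cl

open Fermat.Agent.S55.Dict (fixG)

/-- Dirichlet's `S`-unit theorem and the finiteness of the `S`-class group, in the function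
language; `h90` is Hilbert 90 for `ℚ_S` (`Units.hilbert90_S`). -/
theorem unitInput_of_h90 (S : Finset Nat.Primes) {p : ℕ} (hp : p.Prime) (hp2 : p ≠ 2)
    (U : Subgroup GQ) (hU : (lvlS S).IsOpen U) (hμ : ActsTrivially U (Mu p))
    (h90 : ∀ y : Hsm (lvlS S) (IndMod (GQ ⧸ U) (LSx S)) 1, y = 0) : UnitInput S p (GQ ⧸ U) := by
  obtain ⟨K, _, _, _, rfl, hK⟩ := exists_sField_of_isOpen S U hU
  obtain ⟨h1, h2⟩ := index_nsmul_H0_ES hK hp hp2 hμ
  refine ⟨?_, finite_H1_ES hK h90⟩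
  unfold modCard
  rw [h1, nPl_eq, ← h2, ← pow_mul]
  congr 1
  ring

end Fermat.Agent.S55.Units.Cl
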