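/-
S55 / block UNITS-CL : the export consumed by UNITS-T1 (`UnitInput S p (GQ ⧸ U)`).
-/
import Fermat.Agent.S55.Units.Cl.ExportCore
import Fermat.Agent.S55.Units.H90

set_option autoImplicit false

namespace Fermat.Agent.S55.Units.Cl

/-- Dirichlet's `S`-unit theorem and the finiteness of the `S`-class group, in the function
language. -/
theorem unitInput (S : Finset Nat.Primes) {p : ℕ} (hp : p.Prime) (hp2 : p ≠ 2) (U : Subgroup GQ)
    (hU : (lvlS S).IsOpen U) (hμ : ActsTrivially U (Mu p)) : UnitInput S p (GQ ⧸ U) := by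
  have := hU.finiteIndex
  have : Finite (GQ ⧸ U) := Subgroup.finite_quotient_of_finiteIndex
  have : SmoothSet (lvlS S) (GQ ⧸ U) := SmoothSet.quotient _ hU
  exact unitInput_of_h90 S hp hp2 U hU hμ (hilbert90_S S _)

end Fermat.Agent.S55.Units.Cl
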